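import Mathlib

/-!
# SI-ALT, wild split lemma

`K ∋ ζ_p`, `x ∈ K` not a `p`-th power, `M = K(θ)`, `θ^p = x`, of degree `p`.  If `x` is
`v`-adically close to a `p`-th power (`v(x / y^p - 1) < v((ζ - 1)^p)`), then `v` has at least two
primes of `M` above it.  The prime `v` may divide `p`.
-/

set_option autoImplicit false

open scoped NumberField IntermediateField
open IsDedekindDomain Polynomial

namespace Fermat.Agent.CFT.Global.SIAlt

section Val

variable {K : Type*} [Field K] [NumberField K]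

/-- `v(ζ) ≤ 1`-type statement: a geometric sum of a root of unity is `v`-integral. -/
theorem valuation_geom_sum_le_one {p : ℕ} [Fact p.Prime] {ζ : K} (hζ : IsPrimitiveRoot ζ p)
    (v : HeightOneSpectrum (𝓞 K)) (n : ℕ) :
    v.valuation K (∑ j ∈ Finset.range n, ζ ^ j) ≤ 1 := by
  have hint : IsIntegral ℤ ζ := hζ.isIntegral (Fact.out : p.Prime).pos
  obtain ⟨z, hz⟩ := (IsIntegralClosure.isIntegral_iff (A := 𝓞 K)).mp hint
  have h : (∑ j ∈ Finset.range n, ζ ^ j) =
      algebraMap (𝓞 K) K (∑ j ∈ Finset.range n, z ^ j) := by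
    simp [map_sum, map_pow, hz]
  rw [h]
  exact v.valuation_le_one _

/-- `v(p) ≤ v(ζ - 1)^(p-1)`. -/
theorem valuation_prime_le {p : ℕ} [Fact p.Prime] {ζ : K} (hζ : IsPrimitiveRoot ζ p)
    (v : HeightOneSpectrum (𝓞 K)) :
    v.valuation K (p : K) ≤ v.valuation K (ζ - 1) ^ (p - 1) := by
  have hp : p.Prime := Fact.out
  have hp1 : p - 1 + 1 = p := Nat.sub_add_cancel hp.pos
  have hζ' : IsPrimitiveRoot ζ (p - 1 + 1) := by rwa [hp1]
  have hprod := hζ'.prod_one_sub_pow_eq_order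
  have hcast : ((p - 1 : ℕ) : K) + 1 = (p : K) := by
    have : ((p - 1 + 1 : ℕ) : K) = (p : K) := by rw [hp1]
    simpa using this
  rw [hcast] at hprod
  rw [← hprod, map_prod]
  calc ∏ k ∈ Finset.range (p - 1), v.valuation K (1 - ζ ^ (k + 1))
      ≤ ∏ _k ∈ Finset.range (p - 1), v.valuation K (ζ - 1) := by
        refine Finset.prod_le_prod' fun k _ => ?_
        have h1 : (1 : K) - ζ ^ (k + 1) = -((∑ j ∈ Finset.range (k + 1), ζ ^ j) * (ζ - 1)) := by
          rw [geom_sum_mul]; ring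
        rw [h1, Valuation.map_neg, map_mul]
        calc v.valuation K (∑ j ∈ Finset.range (k + 1), ζ ^ j) * v.valuation K (ζ - 1)
            ≤ 1 * v.valuation K (ζ - 1) :=
              mul_le_mul' (valuation_geom_sum_le_one hζ v (k + 1)) le_rfl
          _ = v.valuation K (ζ - 1) := one_mul _
    _ = v.valuation K (ζ - 1) ^ (p - 1) := by simp

end Val

section Poly

variable {K : Type*} [Field K]

/-- The shifted Kummer polynomial `(X + λ⁻¹)^p - (1+e)/λ^p`; it has the root `(θ' - 1)/λ`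
whenever `θ'^p = 1 + e`. -/
noncomputable def shiftPoly (lam e : K) (p : ℕ) : K[X] :=
  (X + C lam⁻¹) ^ p - C ((1 + e) / lam ^ p)

theorem shiftPoly_monic (lam e : K) {p : ℕ} (hp : 0 < p) : (shiftPoly lam e p).Monic := by
  unfold shiftPoly
  refine Monic.sub_of_left ((monic_X_add_C _).pow p) ?_
  calc degree (C ((1 + e) / lam ^ p)) ≤ 0 := degree_C_le
    _ < (p : WithBot ℕ) := by exact_mod_cast hp
    _ = degree ((X + C lam⁻¹) ^ p) := by rw [degree_pow, degree_X_add_C]; simp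

theorem shiftPoly_natDegree (lam e : K) (p : ℕ) :
    (shiftPoly lam e p).natDegree = p := by
  unfold shiftPoly
  have h1 : ((X + C lam⁻¹ : K[X]) ^ p).natDegree = p := by
    rw [natDegree_pow, natDegree_X_add_C, mul_one]
  rw [natDegree_sub_C, h1]

theorem shiftPoly_coeff (lam e : K) (p : ℕ) {k : ℕ} (hk : 0 < k) :
    (shiftPoly lam e p).coeff k = lam⁻¹ ^ (p - k) * (p.choose k : K) := by
  unfold shiftPoly
  rw [coeff_sub, coeff_X_add_C_pow, coeff_C, if_neg hk.ne', sub_zero]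

theorem shiftPoly_eval_zero {lam : K} (hlam : lam ≠ 0) (e : K) (p : ℕ) :
    (shiftPoly lam e p).eval 0 = -(e / lam ^ p) := by
  unfold shiftPoly
  simp only [eval_sub, eval_pow, eval_add, eval_X, eval_C, zero_add]
  rw [inv_pow]
  have hl : lam ^ p ≠ 0 := pow_ne_zero _ hlam
  field_simp
  ring

theorem shiftPoly_eval_one {lam : K} (hlam : lam ≠ 0) (e : K) {p : ℕ} (h : (lam + 1) ^ p = 1) :
    (shiftPoly lam e p).eval 1 = -(e / lam ^ p) := by
  unfold shiftPoly
  simp only [eval_sub, eval_pow, eval_add, eval_X, eval_C]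
  have h1 : (1 + lam⁻¹ : K) = (lam + 1) / lam := by field_simp
  rw [h1, div_pow, h]
  field_simp
  ring

theorem shiftPoly_coeff_zero {lam : K} (hlam : lam ≠ 0) (e : K) (p : ℕ) :
    (shiftPoly lam e p).coeff 0 = -(e / lam ^ p) := by
  rw [coeff_zero_eq_eval_zero, shiftPoly_eval_zero hlam]

theorem shiftPoly_aeval {M : Type*} [Field M] [Algebra K M] {lam : K} (hlam : lam ≠ 0) (e : K)
    {p : ℕ} {θ' : M} (h : θ' ^ p = algebraMap K M (1 + e)) :
    aeval ((θ' - 1) / algebraMap K M lam) (shiftPoly lam e p) = 0 := by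
  have hl : algebraMap K M lam ≠ 0 := (map_ne_zero (algebraMap K M)).mpr hlam
  unfold shiftPoly
  simp only [map_sub, map_pow, map_add, aeval_X, aeval_C, map_inv₀, map_div₀]
  have h1 : (θ' - 1) / algebraMap K M lam + (algebraMap K M lam)⁻¹ = θ' / algebraMap K M lam := by
    field_simp
    ring
  rw [h1, div_pow, h]
  simp

end Poly

section Coeff

variable {K : Type*} [Field K] [NumberField K]

theorem valuation_natCast_le_one (v : HeightOneSpectrum (𝓞 K)) (n : ℕ) :
    v.valuation K (n : K) ≤ 1 := by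
  have h : (n : K) = algebraMap (𝓞 K) K (n : 𝓞 K) := by simp
  rw [h]
  exact v.valuation_le_one _

theorem valuation_zeta_sub_one_le_one {p : ℕ} [Fact p.Prime] {ζ : K} (hζ : IsPrimitiveRoot ζ p)
    (v : HeightOneSpectrum (𝓞 K)) : v.valuation K (ζ - 1) ≤ 1 := by
  have hint : IsIntegral ℤ ζ := hζ.isIntegral (Fact.out : p.Prime).pos
  obtain ⟨z, hz⟩ := (IsIntegralClosure.isIntegral_iff (A := 𝓞 K)).mp hint
  have h : ζ - 1 = algebraMap (𝓞 K) K (z - 1) := by simp [hz]
  rw [h]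
  exact v.valuation_le_one _

/-- All coefficients of the shifted Kummer polynomial are `v`-integral. -/
theorem valuation_shiftPoly_coeff_le_one {p : ℕ} [Fact p.Prime] {ζ : K}
    (hζ : IsPrimitiveRoot ζ p) (v : HeightOneSpectrum (𝓞 K)) {e : K}
    (he : v.valuation K e < v.valuation K ((ζ - 1) ^ p)) (k : ℕ) :
    v.valuation K ((shiftPoly (ζ - 1) e p).coeff k) ≤ 1 := by
  have hp : p.Prime := Fact.out
  have hlam : ζ - 1 ≠ 0 := sub_ne_zero.mpr (hζ.ne_one hp.one_lt)
  have ha0 : v.valuation K (ζ - 1) ≠ 0 := (Valuation.ne_zero_iff _).mpr hlam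
  have ha1 : v.valuation K (ζ - 1) ≤ 1 := valuation_zeta_sub_one_le_one hζ v
  rcases Nat.eq_zero_or_pos k with rfl | hk
  · rw [shiftPoly_coeff_zero hlam, Valuation.map_neg, map_div₀]
    have hpos : 0 < v.valuation K ((ζ - 1) ^ p) := by
      rw [map_pow]; exact pow_pos (zero_lt_iff.mpr ha0) _
    exact ((div_lt_one₀ hpos).mpr he).le
  · rw [shiftPoly_coeff _ _ _ hk]
    rcases lt_trichotomy k p with hkp | rfl | hkp
    · obtain ⟨m, hm⟩ := hp.dvd_choose_self hk.ne' hkp
      have hc : (p.choose k : K) = (p : K) * (m : K) := by rw [hm]; push_cast; ring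
      rw [hc, map_mul, map_mul, map_pow, map_inv₀]
      have hsplit : p - 1 = (p - k) + (k - 1) := by omega
      calc (v.valuation K (ζ - 1))⁻¹ ^ (p - k) * (v.valuation K (p : K) * v.valuation K (m : K))
          ≤ (v.valuation K (ζ - 1))⁻¹ ^ (p - k) * (v.valuation K (ζ - 1) ^ (p - 1) * 1) :=
            mul_le_mul' le_rfl (mul_le_mul' (valuation_prime_le hζ v)
              (valuation_natCast_le_one v m))
        _ = v.valuation K (ζ - 1) ^ (k - 1) := by
            rw [mul_one, hsplit, pow_add, ← mul_assoc, inv_pow,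
              inv_mul_cancel₀ (pow_ne_zero _ ha0), one_mul]
        _ ≤ 1 := pow_le_one' ha1 _
    · simp
    · rw [Nat.choose_eq_zero_of_lt hkp]; simp

/-- Common denominator prime to `v` for finitely many `v`-integral elements. -/
theorem exists_common_denom (v : HeightOneSpectrum (𝓞 K)) (f : ℕ → K) (s : Finset ℕ)
    (hf : ∀ k ∈ s, v.valuation K (f k) ≤ 1) :
    ∃ d : 𝓞 K, d ∉ v.asIdeal ∧
      ∀ k ∈ s, ∃ n : 𝓞 K, algebraMap (𝓞 K) K n = f k * algebraMap (𝓞 K) K d := by
  classical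
  induction s using Finset.induction_on with
  | empty => exact ⟨1, fun h => v.isPrime.ne_top ((Ideal.eq_top_iff_one _).mpr h), by simp⟩
  | insert a s ha ih =>
    obtain ⟨d', hd', hn'⟩ := ih fun k hk => hf k (Finset.mem_insert_of_mem hk)
    obtain ⟨na, da, hda⟩ := v.exists_primeCompl_mul_eq_of_integer (f a)
      (hf a (Finset.mem_insert_self a s))
    refine ⟨d' * da, fun h => ?_, fun k hk => ?_⟩
    · rcases v.isPrime.mem_or_mem h with h | h
      · exact hd' h
      · exact da.2 h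
    · rcases Finset.mem_insert.mp hk with rfl | hk
      · exact ⟨na * d', by rw [map_mul, map_mul, ← hda]; ring⟩
      · obtain ⟨n, hn⟩ := hn' k hk
        exact ⟨n * da, by rw [map_mul, map_mul, hn]; ring⟩

end Coeff

section LyingOver

variable {K M : Type*} [Field K] [NumberField K] [Field M] [NumberField M] [Algebra K M]

/-- If `c` is a root modulo `v` of the minimal polynomial of `s ∈ 𝓞 M` over `𝓞 K`, there is a
maximal ideal of `𝓞 M` above `v` containing `s - c`. -/
theorem exists_maximal_of_minpoly_eval_mem (v : HeightOneSpectrum (𝓞 K)) (s : 𝓞 M) (c : 𝓞 K)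
    (h : (minpoly (𝓞 K) s).eval c ∈ v.asIdeal) :
    ∃ Q : Ideal (𝓞 M), Q.IsMaximal ∧ s - algebraMap (𝓞 K) (𝓞 M) c ∈ Q ∧
      Q.comap (algebraMap (𝓞 K) (𝓞 M)) = v.asIdeal := by
  have hs : IsIntegral (𝓞 K) s := Algebra.IsIntegral.isIntegral s
  have hvmax : v.asIdeal.IsMaximal := v.isMaximal
  letI := Ideal.Quotient.field v.asIdeal
  let A := Algebra.adjoin (𝓞 K) ({s} : Set (𝓞 M))
  let e := minpoly.equivAdjoin hs
  let φ : AdjoinRoot (minpoly (𝓞 K) s) →+* 𝓞 K ⧸ v.asIdeal :=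
    AdjoinRoot.lift (Ideal.Quotient.mk v.asIdeal) (Ideal.Quotient.mk v.asIdeal c)
      (by rw [eval₂_at_apply]; exact Ideal.Quotient.eq_zero_iff_mem.mpr h)
  let ψ : A →+* 𝓞 K ⧸ v.asIdeal := φ.comp (e.symm : A →+* AdjoinRoot (minpoly (𝓞 K) s))
  have hψalg : ∀ r : 𝓞 K, ψ (algebraMap (𝓞 K) A r) = Ideal.Quotient.mk v.asIdeal r := by
    intro r
    simp [ψ, φ]
  have hψs : ψ ⟨s, Algebra.self_mem_adjoin_singleton (𝓞 K) s⟩ = Ideal.Quotient.mk v.asIdeal c := by
    have h1 : e (AdjoinRoot.root (minpoly (𝓞 K) s)) =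
        ⟨s, Algebra.self_mem_adjoin_singleton (𝓞 K) s⟩ := by
      simp [e]
    have h2 : e.symm ⟨s, Algebra.self_mem_adjoin_singleton (𝓞 K) s⟩ =
        AdjoinRoot.root (minpoly (𝓞 K) s) := by
      rw [← h1, AlgEquiv.symm_apply_apply]
    simp only [ψ, RingHom.comp_apply, RingHom.coe_coe, h2]
    simp [φ]
  have hψsurj : Function.Surjective ψ := fun q => by
    obtain ⟨r, rfl⟩ := Ideal.Quotient.mk_surjective q
    exact ⟨algebraMap (𝓞 K) A r, hψalg r⟩
  have hkmax : (RingHom.ker ψ).IsMaximal := RingHom.ker_isMaximal_of_surjective ψ hψsurj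
  have hAint : Algebra.IsIntegral A (𝓞 M) := Algebra.IsIntegral.tower_top (R := 𝓞 K)
  obtain ⟨Q, hQmax, hQ⟩ := Ideal.exists_ideal_over_maximal_of_isIntegral (S := 𝓞 M)
    (RingHom.ker ψ) (by
      have : RingHom.ker (algebraMap A (𝓞 M)) = ⊥ :=
        (RingHom.injective_iff_ker_eq_bot _).mp Subtype.val_injective
      rw [this]; exact bot_le)
  refine ⟨Q, hQmax, ?_, ?_⟩
  · have hmem : (⟨s, Algebra.self_mem_adjoin_singleton (𝓞 K) s⟩ - algebraMap (𝓞 K) A c : A) ∈
        RingHom.ker ψ := by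
      rw [RingHom.mem_ker, map_sub, hψs, hψalg, sub_self]
    rw [← hQ, Ideal.mem_comap] at hmem
    simpa using hmem
  · have hle : v.asIdeal ≤ Q.comap (algebraMap (𝓞 K) (𝓞 M)) := by
      intro r hr
      have hmem : algebraMap (𝓞 K) A r ∈ RingHom.ker ψ := by
        rw [RingHom.mem_ker, hψalg]; exact Ideal.Quotient.eq_zero_iff_mem.mpr hr
      rw [← hQ, Ideal.mem_comap] at hmem
      rw [Ideal.mem_comap]
      simpa using hmem
    have hne : Q.comap (algebraMap (𝓞 K) (𝓞 M)) ≠ ⊤ := by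
      intro htop
      have h1 : (1 : 𝓞 K) ∈ Q.comap (algebraMap (𝓞 K) (𝓞 M)) := by rw [htop]; trivial
      rw [Ideal.mem_comap, map_one] at h1
      exact hQmax.ne_top ((Ideal.eq_top_iff_one _).mpr h1)
    exact (v.isMaximal.eq_of_le hne hle).symm

end LyingOver

section Main

variable {K M : Type*} [Field K] [NumberField K] [Field M] [NumberField M] [Algebra K M]

/-- **Wild split lemma.**  `K ∋ ζ_p`, `x ∈ K` not a `p`-th power, `θ ∈ M` with `θ^p = x`,
`[M : K] = p`.  If `v(x / y^p - 1) < v((ζ - 1)^p)` for some `y ≠ 0`, there are two distinct primes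
of `M` above `v`.  (`v` may divide `p`.) -/
theorem exists_two_primes_above {p : ℕ} [Fact p.Prime] {ζ : K} (hζ : IsPrimitiveRoot ζ p)
    (v : HeightOneSpectrum (𝓞 K)) {x y : K} (hy : y ≠ 0) (hx : ∀ t : K, t ^ p ≠ x)
    (hxy : v.valuation K (x / y ^ p - 1) < v.valuation K ((ζ - 1) ^ p))
    {θ : M} (hθ : θ ^ p = algebraMap K M x) (hdeg : Module.finrank K M = p) :
    ∃ w₁ w₂ : HeightOneSpectrum (𝓞 M), w₁ ≠ w₂ ∧
      w₁.asIdeal.comap (algebraMap (𝓞 K) (𝓞 M)) = v.asIdeal ∧
      w₂.asIdeal.comap (algebraMap (𝓞 K) (𝓞 M)) = v.asIdeal := by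
  have hp : p.Prime := Fact.out
  have hfd : FiniteDimensional K M := Module.finite_of_finrank_pos (by rw [hdeg]; exact hp.pos)
  set lam : K := ζ - 1 with hlamdef
  have hlam : lam ≠ 0 := sub_ne_zero.mpr (hζ.ne_one hp.one_lt)
  set e : K := x / y ^ p - 1 with hedef
  set g : K[X] := shiftPoly lam e p with hgdef
  have hgmonic : g.Monic := shiftPoly_monic lam e hp.pos
  have hgdeg : g.natDegree = p := shiftPoly_natDegree lam e p
  have hcoef : ∀ k, v.valuation K (g.coeff k) ≤ 1 :=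
    valuation_shiftPoly_coeff_le_one hζ v hxy
  -- a common denominator prime to `v`
  obtain ⟨d, hd, hn⟩ := exists_common_denom v g.coeff (Finset.range p) (fun k _ => hcoef k)
  have hd0 : d ≠ 0 := fun h => hd (h ▸ v.asIdeal.zero_mem)
  set D : K := algebraMap (𝓞 K) K d with hDdef
  have hD0 : D ≠ 0 := (map_ne_zero_iff _ (FaithfulSMul.algebraMap_injective (𝓞 K) K)).mpr hd0
  -- the scaled polynomial has coefficients in `𝓞 K`
  set GK : K[X] := scaleRoots g D with hGK
  have hGKmonic : GK.Monic := (monic_scaleRoots_iff D).mpr hgmonic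
  have hGKdeg : GK.natDegree = p := by rw [hGK, natDegree_scaleRoots, hgdeg]
  have hlift : GK ∈ lifts (algebraMap (𝓞 K) K) := by
    rw [lifts_iff_coeff_lifts]
    intro k
    rw [hGK, coeff_scaleRoots, hgdeg]
    rcases lt_trichotomy k p with hk | hk | hk
    · obtain ⟨n, hn'⟩ := hn k (Finset.mem_range.mpr hk)
      refine ⟨n * d ^ (p - k - 1), ?_⟩
      have hpk : D ^ (p - k) = D * D ^ (p - k - 1) := by
        rw [← pow_succ']; congr 1; omega
      rw [map_mul, map_pow, hn', hpk]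
      ring
    · refine ⟨1, ?_⟩
      have h1 : g.coeff p = 1 := by
        have := hgmonic.coeff_natDegree
        rwa [hgdeg] at this
      rw [hk, h1]
      simp
    · refine ⟨0, ?_⟩
      rw [coeff_eq_zero_of_natDegree_lt (by rw [hgdeg]; exact hk)]
      simp
  obtain ⟨G, hGmap, hGdeg, hGmonic⟩ := lifts_and_natDegree_eq_and_monic hlift hGKmonic
  -- the root
  have hyM : algebraMap K M y ≠ 0 := (map_ne_zero (algebraMap K M)).mpr hy
  have hlamM : algebraMap K M lam ≠ 0 := (map_ne_zero (algebraMap K M)).mpr hlam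
  have hDM : algebraMap K M D ≠ 0 := (map_ne_zero (algebraMap K M)).mpr hD0
  set θ' : M := θ / algebraMap K M y with hθ'def
  have hθ' : θ' ^ p = algebraMap K M (1 + e) := by
    rw [hθ'def, div_pow, hθ, ← map_pow, ← map_div₀]
    congr 1
    rw [hedef]; ring
  set η : M := (θ' - 1) / algebraMap K M lam with hηdef
  have hη : aeval η g = 0 := shiftPoly_aeval hlam e hθ'
  set η₁' : M := algebraMap K M D * η with hη₁'def
  have hη₁' : aeval η₁' GK = 0 := scaleRoots_aeval_eq_zero hη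
  have hη₁'G : aeval η₁' G = 0 := by
    rw [← hGmap, aeval_map_algebraMap] at hη₁'
    exact hη₁'
  have hint : IsIntegral (𝓞 K) η₁' := ⟨G, hGmonic, by rw [← aeval_def]; exact hη₁'G⟩
  obtain ⟨η₁, hη₁⟩ : ∃ s : 𝓞 M, algebraMap (𝓞 M) M s = η₁' := by
    have hZ : IsIntegral ℤ η₁' := isIntegral_trans _ hint
    exact (IsIntegralClosure.isIntegral_iff (A := 𝓞 M)).mp hZ
  have hinj : Function.Injective (algebraMap (𝓞 M) M) := FaithfulSMul.algebraMap_injective (𝓞 M) M
  have hη₁G : aeval η₁ G = 0 := by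
    apply hinj
    rw [map_zero, ← aeval_algebraMap_apply, hη₁]
    exact hη₁'G
  -- `θ` generates `M`, hence so does `η₁'`
  have hirr : Irreducible (X ^ p - C x : K[X]) := X_pow_sub_C_irreducible_of_prime hp hx
  have hminθ : minpoly K θ = X ^ p - C x :=
    (minpoly.eq_of_irreducible_of_monic hirr (by simp [hθ]) (monic_X_pow_sub_C x hp.ne_zero)).symm
  have hθtop : K⟮θ⟯ = ⊤ :=
    (Field.primitive_element_iff_minpoly_natDegree_eq K θ).mpr
      (by rw [hminθ, natDegree_X_pow_sub_C, hdeg])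
  have hθmem : θ ∈ K⟮η₁'⟯ := by
    have hmem : η₁' ∈ K⟮η₁'⟯ := IntermediateField.mem_adjoin_simple_self K η₁'
    have hθeq : θ = algebraMap K M y * (algebraMap K M lam * (η₁' / algebraMap K M D) + 1) := by
      rw [hη₁'def, hηdef, hθ'def]
      field_simp
      ring
    rw [hθeq]
    exact mul_mem (algebraMap_mem _ _) (add_mem (mul_mem (algebraMap_mem _ _)
      (div_mem hmem (algebraMap_mem _ _))) (one_mem _))
  have htop : K⟮η₁'⟯ = ⊤ := by
    rw [eq_top_iff, ← hθtop]
    exact IntermediateField.adjoin_simple_le_iff.mpr hθmem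
  -- the minimal polynomial of `η₁` over `𝓞 K` is `G`
  have hs : IsIntegral (𝓞 K) η₁ := Algebra.IsIntegral.isIntegral η₁
  have hdvd : minpoly (𝓞 K) η₁ ∣ G := minpoly.isIntegrallyClosed_dvd hs hη₁G
  have hmindeg : (minpoly (𝓞 K) η₁).natDegree = p := by
    have h1 : minpoly K η₁' = (minpoly (𝓞 K) η₁').map (algebraMap (𝓞 K) K) :=
      minpoly.isIntegrallyClosed_eq_field_fractions' K hint
    have h2 : minpoly (𝓞 K) η₁' = minpoly (𝓞 K) η₁ := by
      rw [← hη₁]; exact minpoly.algebraMap_eq hinj η₁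
    have h3 : (minpoly K η₁').natDegree = p := by
      rw [← hdeg]; exact (Field.primitive_element_iff_minpoly_natDegree_eq K η₁').mp htop
    rw [← h2, ← h3, h1, (minpoly.monic hint).natDegree_map]
  have hminG : minpoly (𝓞 K) η₁ = G :=
    (eq_of_monic_of_dvd_of_natDegree_le (minpoly.monic hs) hGmonic hdvd
      (by rw [hGdeg, hGKdeg, hmindeg])).symm
  -- the two roots `0` and `d` modulo `v`
  have hζp : (lam + 1) ^ p = 1 := by rw [hlamdef, sub_add_cancel]; exact hζ.pow_eq_one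
  have hlt : v.valuation K (-(e / lam ^ p)) < 1 := by
    rw [Valuation.map_neg, map_div₀]
    have hpos : 0 < v.valuation K (lam ^ p) :=
      zero_lt_iff.mpr ((Valuation.ne_zero_iff _).mpr (pow_ne_zero _ hlam))
    exact (div_lt_one₀ hpos).mpr hxy
  have heval : ∀ r : 𝓞 K, g.eval (algebraMap (𝓞 K) K r) = -(e / lam ^ p) →
      G.eval (d * r) ∈ v.asIdeal := by
    intro r hr
    have h1 : algebraMap (𝓞 K) K (G.eval (d * r)) = D ^ p * g.eval (algebraMap (𝓞 K) K r) := by
      have h2 := scaleRoots_eval_mul g (algebraMap (𝓞 K) K r) D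
      rw [hgdeg] at h2
      rw [← h2, ← hGK, ← hGmap, eval_map, hDdef, ← map_mul, eval₂_at_apply]
    have h3 : v.valuation K (algebraMap (𝓞 K) K (G.eval (d * r))) < 1 := by
      rw [h1, hr, map_mul, map_pow]
      calc v.valuation K D ^ p * v.valuation K (-(e / lam ^ p))
          ≤ 1 * v.valuation K (-(e / lam ^ p)) :=
            mul_le_mul' (pow_le_one' (v.valuation_le_one d) p) le_rfl
        _ = v.valuation K (-(e / lam ^ p)) := one_mul _
        _ < 1 := hlt
    exact (v.valuation_lt_one_iff_mem _).mp h3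
  obtain ⟨Q₀, hQ₀max, hQ₀mem, hQ₀c⟩ := exists_maximal_of_minpoly_eval_mem v η₁ (d * 0)
    (by rw [hminG]; exact heval 0 (by rw [map_zero]; exact shiftPoly_eval_zero hlam e p))
  obtain ⟨Q₁, hQ₁max, hQ₁mem, hQ₁c⟩ := exists_maximal_of_minpoly_eval_mem v η₁ (d * 1)
    (by rw [hminG]; exact heval 1 (by rw [map_one]; exact shiftPoly_eval_one hlam e hζp))
  have hne : ∀ Q : Ideal (𝓞 M), Q.comap (algebraMap (𝓞 K) (𝓞 M)) = v.asIdeal → Q ≠ ⊥ := by
    rintro Q hQ rfl
    have hbot : (⊥ : Ideal (𝓞 M)).comap (algebraMap (𝓞 K) (𝓞 M)) = ⊥ := by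
      rw [← RingHom.ker_eq_comap_bot]
      exact (RingHom.injective_iff_ker_eq_bot _).mp
        (FaithfulSMul.algebraMap_injective (𝓞 K) (𝓞 M))
    exact v.ne_bot (hQ.symm.trans hbot)
  refine ⟨⟨Q₀, hQ₀max.isPrime, hne Q₀ hQ₀c⟩, ⟨Q₁, hQ₁max.isPrime, hne Q₁ hQ₁c⟩, ?_, hQ₀c, hQ₁c⟩
  intro heq
  have hQeq : Q₀ = Q₁ := congrArg HeightOneSpectrum.asIdeal heq
  have hmemd : algebraMap (𝓞 K) (𝓞 M) d ∈ Q₁ := by
    have h0 : η₁ - algebraMap (𝓞 K) (𝓞 M) (d * 0) ∈ Q₁ := hQeq ▸ hQ₀mem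
    have h1 := Q₁.sub_mem h0 hQ₁mem
    simpa using h1
  exact hd (by rw [← hQ₁c]; exact hmemd)

end Main

end Fermat.Agent.CFT.Global.SIAlt
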